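/-
GATE-F / GF-D2-F2 (helper23), Mathlib-only: **linear independence of coordinate vectors survives
extension of the scalar field.**

`F → E` fields, `v : ι → (I → F)` linearly independent over `F`  ⟹  the vectors
`fun i n => algebraMap F E (v i n)` of `I → E` are linearly independent over `E`
(apply an `F`-linear functional `E → F` not vanishing on a coefficient of a putative relation).
-/
import Mathlib

set_option autoImplicit false

namespace Fermat.Agent.GF.D2.F2

variable {F E : Type*} [Field F] [Field E] [Algebra F E] {ι I : Type*}

/-- **Extension of scalars for coordinate vectors.** -/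
theorem linearIndependent_algebraMap_comp {v : ι → I → F} (hv : LinearIndependent F v) :
    LinearIndependent E (fun i => fun n => algebraMap F E (v i n)) := by
  classical
  rw [linearIndependent_iff']
  intro s c hc i0 hi0
  by_contra hne
  obtain ⟨φ, hφ⟩ : ∃ φ : Module.Dual F E, φ (c i0) ≠ 0 := by
    by_contra hall
    push Not at hall
    exact hne ((Module.forall_dual_apply_eq_zero_iff F (c i0)).1 hall)
  have hrel : ∑ i ∈ s, φ (c i) • v i = 0 := by
    funext n
    have h1 := congrFun hc n
    simp only [Finset.sum_apply, Pi.smul_apply, smul_eq_mul, Pi.zero_apply] at h1 ⊢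
    have h2 : φ (∑ i ∈ s, c i * algebraMap F E (v i n)) = 0 := by rw [h1, map_zero]
    rw [map_sum] at h2
    rw [← h2]
    refine Finset.sum_congr rfl fun i _ => ?_
    have : c i * algebraMap F E (v i n) = v i n • c i := by
      rw [Algebra.smul_def, mul_comm]
    rw [this, map_smul, smul_eq_mul, mul_comm]
  exact hφ (linearIndependent_iff'.1 hv s (fun i => φ (c i)) hrel i0 hi0)

/-- the same for integer vectors reduced into fields of characteristic `p` -/
theorem linearIndependent_intCast_of_zmod {p : ℕ} [Fact p.Prime] {a : ι → I → ℤ}
    (ha : LinearIndependent (ZMod p) (fun i => fun n => ((a i n : ℤ) : ZMod p)))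
    (k : Type*) [Field k] [CharP k p] :
    LinearIndependent k (fun i => fun n => ((a i n : ℤ) : k)) := by
  let _ : Algebra (ZMod p) k := ZMod.algebra k p
  have h := linearIndependent_algebraMap_comp (E := k) ha
  convert h using 3
  rw [map_intCast]

/-- the same for integer vectors, from `ℚ` to a field of characteristic zero -/
theorem linearIndependent_intCast_of_rat {a : ι → I → ℤ}
    (ha : LinearIndependent ℚ (fun i => fun n => ((a i n : ℤ) : ℚ)))
    (k : Type*) [Field k] [CharZero k] :
    LinearIndependent k (fun i => fun n => ((a i n : ℤ) : k)) := by
  have h := linearIndependent_algebraMap_comp (E := k) ha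
  convert h using 3
  rw [map_intCast]

end Fermat.Agent.GF.D2.F2
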