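/-
GATE-F / GF-D2-F2 (helper23): **an integral basis of `S₂(Γ₀(N))` whose reductions are linearly
independent at EVERY prime** (node (F2) of helper62's GF-D2 HOL, board 5857).

`Λ := CuspForm.intLattice N 2` (forms with integer `q`-expansion) is a finitely generated
torsion-free `ℤ`-module, hence free; a `ℤ`-basis `β` of `Λ`

* is a `ℂ`-basis of `S₂(Γ₀(N))` (spanning = S23; independence: a complex relation gives a rational
  one through a `ℚ`-linear functional `ℂ → ℚ`, because the coefficient vectors are integral);
* has `𝔽_p`-linearly independent reduced coefficient vectors for EVERY prime `p`, because `Λ` is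
  saturated: a form of `Λ` all of whose coefficients are divisible by `p` lies in `p Λ`.

Exports: `exists_intBasis` (the basis, its integer coefficients, independence mod every `p`),
`linearIndependent_residue` (in any field of characteristic `p`), `exists_intBasis_subring`
(packaged for a coefficient ring `R ↪ ℂ` with a reduction `R → k`, the D4 / D2-ASM shape).
-/
import Fermat.Agent.S23
import Fermat.Agent.S49_helper65.Lattice
import Fermat.Agent.GF.D2.F2.ExtScalars

set_option autoImplicit false
set_option linter.unusedSectionVars false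

open CongruenceSubgroup ModularFormClass

namespace Fermat.Agent.GF.D2.F2

open Fermat.Agent.S49_helper65

variable (N : ℕ) [NeZero N]

/-- the integral lattice -/
abbrev Lat : Submodule ℤ (CuspForm (Gamma0 N) 2) := CuspForm.intLattice N 2

instance instFiniteLat : Module.Finite ℤ (Lat N) :=
  Module.Finite.iff_fg.mpr (CuspForm.intLattice_fg N 2)

instance instAddTorsionFreeForm : IsAddTorsionFree (CuspForm (Gamma0 N) 2) :=
  IsAddTorsionFree.of_isTorsionFree ℂ _

instance instFreeLat : Module.Free ℤ (Lat N) :=
  Module.free_of_finite_type_torsion_free'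

/-- the integer `q`-coefficients of a lattice element -/
noncomputable def coeffInt (f : Lat N) (n : ℕ) : ℤ :=
  Classical.choose ((mem_intLattice_iff (f : CuspForm (Gamma0 N) 2)).1 f.2 n)

theorem coeffInt_spec (f : Lat N) (n : ℕ) :
    qCoeff (f : CuspForm (Gamma0 N) 2) n = (coeffInt N f n : ℂ) :=
  Classical.choose_spec ((mem_intLattice_iff (f : CuspForm (Gamma0 N) 2)).1 f.2 n)

/-- the rank of the lattice -/
noncomputable def latRank : ℕ := Module.finrank ℤ (Lat N)

/-- a `ℤ`-basis of the lattice -/
noncomputable def latBasis : Module.Basis (Fin (latRank N)) ℤ (Lat N) := Module.finBasis ℤ (Lat N)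

/-- the basis as forms -/
noncomputable def latForm (i : Fin (latRank N)) : CuspForm (Gamma0 N) 2 := (latBasis N i : Lat N)

/-- its integer coefficients -/
noncomputable def latCoeff (i : Fin (latRank N)) (n : ℕ) : ℤ := coeffInt N (latBasis N i) n

theorem qCoeff_latForm (i : Fin (latRank N)) (n : ℕ) :
    qCoeff (latForm N i) n = (latCoeff N i n : ℂ) := coeffInt_spec N _ n

/-- `q`-coefficients of a finite complex combination -/
theorem qCoeff_sum_smul {ι : Type*} (s : Finset ι) (c : ι → ℂ) (f : ι → CuspForm (Gamma0 N) 2)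
    (n : ℕ) : qCoeff (∑ i ∈ s, c i • f i : CuspForm (Gamma0 N) 2) n =
      ∑ i ∈ s, c i * qCoeff (f i) n := by
  classical
  induction s using Finset.induction_on with
  | empty =>
    rw [Finset.sum_empty, Finset.sum_empty]
    exact qCoeff_zero_form n
  | insert a s ha ih =>
    rw [Finset.sum_insert ha, Finset.sum_insert ha, qCoeff_add_cusp, qCoeff_smul_cusp, ih]

/-- `ℤ`-independence of the basis, as forms -/
theorem linearIndependent_int_latForm : LinearIndependent ℤ (latForm N) := by
  have h := (latBasis N).linearIndependent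
  have := h.map' (Lat N).subtype (Submodule.ker_subtype _)
  exact this

/-- `ℚ`-independence of the basis, as forms (rational scalars acting through `ℂ`) -/
theorem rat_latForm_eq_zero (s : Finset (Fin (latRank N))) (r : Fin (latRank N) → ℚ)
    (hr : ∑ i ∈ s, ((r i : ℚ) : ℂ) • latForm N i = 0) : ∀ i ∈ s, r i = 0 := by
  let _ : Module ℚ (CuspForm (Gamma0 N) 2) := Module.compHom _ (algebraMap ℚ ℂ)
  have h : LinearIndependent ℚ (latForm N) :=
    (linearIndependent_int_latForm N).localization ℚ (nonZeroDivisors ℤ)
  exact linearIndependent_iff'.1 h s r hr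

/-- `ℂ`-independence of the basis -/
theorem linearIndependent_latForm : LinearIndependent ℂ (latForm N) := by
  classical
  rw [linearIndependent_iff']
  intro s c hc i0 hi0
  by_contra hne
  obtain ⟨φ, hφ⟩ : ∃ φ : Module.Dual ℚ ℂ, φ (c i0) ≠ 0 := by
    by_contra hall
    push Not at hall
    exact hne ((Module.forall_dual_apply_eq_zero_iff ℚ (c i0)).1 hall)
  -- the rational relation
  have hrel : ∑ i ∈ s, ((φ (c i) : ℚ) : ℂ) • latForm N i = 0 := by
    apply cusp_eq_zero_of_qCoeff
    intro n
    have h0 : qCoeff (∑ i ∈ s, c i • latForm N i : CuspForm (Gamma0 N) 2) n = 0 := by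
      rw [hc, qCoeff_zero_form]
    rw [qCoeff_sum_smul] at h0
    rw [qCoeff_sum_smul]
    have h2 : φ (∑ i ∈ s, c i * qCoeff (latForm N i) n) = 0 := by rw [h0, map_zero]
    rw [map_sum] at h2
    have h3 : ∀ i ∈ s, φ (c i * qCoeff (latForm N i) n) = (latCoeff N i n : ℚ) * φ (c i) := by
      intro i _
      rw [qCoeff_latForm]
      have : c i * ((latCoeff N i n : ℤ) : ℂ) = ((latCoeff N i n : ℤ) : ℚ) • c i := by
        rw [Rat.smul_def, mul_comm]
        push_cast
        rfl
      rw [this, map_smul, smul_eq_mul]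
    rw [Finset.sum_congr rfl h3] at h2
    have h4 : ((∑ i ∈ s, (latCoeff N i n : ℚ) * φ (c i) : ℚ) : ℂ) = 0 := by rw [h2]; simp
    rw [← h4]
    push_cast
    refine Finset.sum_congr rfl fun i _ => ?_
    rw [qCoeff_latForm]
    ring
  exact hφ (rat_latForm_eq_zero N s (fun i => φ (c i)) hrel i0 hi0)

/-- the basis spans `S₂` over `ℂ` (S23) -/
theorem span_latForm : Submodule.span ℂ (Set.range (latForm N)) = ⊤ := by
  rw [eq_top_iff]
  have h23 : Submodule.span ℂ ((Lat N : Submodule ℤ (CuspForm (Gamma0 N) 2)) :
      Set (CuspForm (Gamma0 N) 2)) = ⊤ := Fermat.Agent.S23.result N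
  rw [← h23]
  apply Submodule.span_le.mpr
  intro f hf
  -- `f` is an integer combination of the basis
  have hrepr := (latBasis N).sum_repr ⟨f, hf⟩
  have hf' : f = ∑ i, ((latBasis N).repr ⟨f, hf⟩ i) • latForm N i := by
    have := congrArg (Subtype.val : Lat N → CuspForm (Gamma0 N) 2) hrepr
    rw [Submodule.coe_sum] at this
    refine this.symm.trans ?_
    refine Finset.sum_congr rfl fun i _ => ?_
    rw [Submodule.coe_smul]
    rfl
  rw [hf']
  refine Submodule.sum_mem _ fun i _ => ?_
  rw [← Int.cast_smul_eq_zsmul ℂ]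
  exact Submodule.smul_mem _ _ (Submodule.subset_span ⟨i, rfl⟩)

/-- the rank of the lattice is the dimension of `S₂` -/
theorem latRank_eq : latRank N = Module.finrank ℂ (CuspForm (Gamma0 N) 2) := by
  have b := Module.Basis.mk (linearIndependent_latForm N) (span_latForm N).ge
  rw [Module.finrank_eq_card_basis b, Fintype.card_fin]

/-- **saturation**: a lattice form all of whose coefficients are divisible by `p` is `p` times a
lattice form -/
theorem exists_eq_smul_of_dvd (p : ℕ) (hp : p ≠ 0) (h : Lat N)
    (hdvd : ∀ n, (p : ℤ) ∣ coeffInt N h n) : ∃ h' : Lat N, h = (p : ℤ) • h' := by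
  choose d hd using hdvd
  have hpC : (p : ℂ) ≠ 0 := by exact_mod_cast hp
  let g : CuspForm (Gamma0 N) 2 := ((p : ℂ)⁻¹) • (h : CuspForm (Gamma0 N) 2)
  have hg : g ∈ Lat N := by
    rw [mem_intLattice_iff]
    intro n
    refine ⟨d n, ?_⟩
    rw [qCoeff_smul_cusp, coeffInt_spec, hd n]
    push_cast
    field_simp
  refine ⟨⟨g, hg⟩, ?_⟩
  apply Subtype.ext
  show (h : CuspForm (Gamma0 N) 2) = (p : ℤ) • g
  rw [← Int.cast_smul_eq_zsmul ℂ, smul_smul]
  push_cast
  rw [mul_inv_cancel₀ hpC, one_smul]

/-- coefficients of an integer combination of the basis -/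
theorem coeffInt_sum (c : Fin (latRank N) → ℤ) (n : ℕ) :
    coeffInt N (∑ i, c i • latBasis N i) n = ∑ i, c i * latCoeff N i n := by
  have h1 := coeffInt_spec N (∑ i, c i • latBasis N i) n
  have h2 : ((∑ i, c i • latBasis N i : Lat N) : CuspForm (Gamma0 N) 2) =
      ∑ i, ((c i : ℤ) : ℂ) • latForm N i := by
    rw [Submodule.coe_sum]
    refine Finset.sum_congr rfl fun i _ => ?_
    rw [Submodule.coe_smul, Int.cast_smul_eq_zsmul]
    rfl
  rw [h2, qCoeff_sum_smul] at h1
  have h3 : ((∑ i, c i * latCoeff N i n : ℤ) : ℂ) = (coeffInt N (∑ i, c i • latBasis N i) n : ℂ) := by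
    rw [← h1]
    push_cast
    refine Finset.sum_congr rfl fun i _ => ?_
    rw [qCoeff_latForm]
  exact_mod_cast h3.symm

/-- **independence of the reductions modulo every prime** -/
theorem linearIndependent_zmod_latCoeff (p : ℕ) [hp : Fact p.Prime] :
    LinearIndependent (ZMod p) (fun i : Fin (latRank N) => fun n : ℕ =>
      ((latCoeff N i n : ℤ) : ZMod p)) := by
  classical
  rw [Fintype.linearIndependent_iff]
  intro cbar hc i
  -- integer lifts of the coefficients
  choose c hcl using fun i => ZMod.intCast_surjective (cbar i)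
  have hdvd : ∀ n, (p : ℤ) ∣ coeffInt N (∑ i, c i • latBasis N i) n := by
    intro n
    rw [coeffInt_sum, ← ZMod.intCast_zmod_eq_zero_iff_dvd]
    have := congrFun hc n
    simp only [Finset.sum_apply, Pi.smul_apply, smul_eq_mul, Pi.zero_apply] at this
    rw [← this]
    push_cast
    refine Finset.sum_congr rfl fun i _ => ?_
    rw [hcl i]
  obtain ⟨h', hh'⟩ := exists_eq_smul_of_dvd N p hp.out.ne_zero _ hdvd
  -- compare coordinates in the basis
  have hrepr : ∀ i, c i = (p : ℤ) * (latBasis N).repr h' i := by
    intro i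
    have h1 := congrArg (fun x => (latBasis N).repr x i) hh'
    simp only [map_sum, map_smul, Module.Basis.repr_self, Finsupp.smul_single, smul_eq_mul,
      mul_one, Finsupp.coe_finsetSum, Finset.sum_apply, Finsupp.smul_apply] at h1
    rw [Finset.sum_eq_single i (fun j _ hji => Finsupp.single_eq_of_ne hji.symm)
      (fun hi => absurd (Finset.mem_univ i) hi), Finsupp.single_eq_same] at h1
    exact h1
  rw [← hcl i, hrepr i]
  push_cast
  rw [ZMod.natCast_self, zero_mul]

/-- the same in any field of characteristic `p` (e.g. the residue field of a valuation ring of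
`ℚ̄` over `p`) -/
theorem linearIndependent_residue (p : ℕ) [Fact p.Prime] (k : Type*) [Field k] [CharP k p] :
    LinearIndependent k (fun i : Fin (latRank N) => fun n : ℕ => ((latCoeff N i n : ℤ) : k)) :=
  linearIndependent_intCast_of_zmod (linearIndependent_zmod_latCoeff N p) k

/-- **(F2)**: an integral basis of `S₂(Γ₀(N))` with independent reductions at every prime. -/
theorem exists_intBasis :
    ∃ (f : Fin (Module.finrank ℂ (CuspForm (Gamma0 N) 2)) → CuspForm (Gamma0 N) 2)
      (a : Fin (Module.finrank ℂ (CuspForm (Gamma0 N) 2)) → ℕ → ℤ),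
      (∀ i n, qCoeff (f i) n = (a i n : ℂ)) ∧ LinearIndependent ℂ f ∧
      Submodule.span ℂ (Set.range f) = ⊤ ∧
      ∀ (p : ℕ) [Fact p.Prime], LinearIndependent (ZMod p)
        (fun i => fun n : ℕ => ((a i n : ℤ) : ZMod p)) := by
  have key : ∀ (m : ℕ) (hm : latRank N = m),
      ∃ (f : Fin m → CuspForm (Gamma0 N) 2) (a : Fin m → ℕ → ℤ),
        (∀ i n, qCoeff (f i) n = (a i n : ℂ)) ∧ LinearIndependent ℂ f ∧
        Submodule.span ℂ (Set.range f) = ⊤ ∧
        ∀ (p : ℕ) [Fact p.Prime], LinearIndependent (ZMod p)
          (fun i => fun n : ℕ => ((a i n : ℤ) : ZMod p)) := by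
    intro m hm
    subst hm
    exact ⟨latForm N, latCoeff N, qCoeff_latForm N, linearIndependent_latForm N, span_latForm N,
      fun p _ => linearIndependent_zmod_latCoeff N p⟩
  exact key _ (latRank_eq N)

/-- **(F2), packaged for a coefficient ring** `R` with `ι : R →+* ℂ` and a reduction
`red : R →+* k` into a field of characteristic `p`: the basis has coefficients `b i n ∈ R`
(the integers), `qCoeff (f i) n = ι (b i n)`, and the reduced coefficient vectors are
`k`-linearly independent. -/
theorem exists_intBasis_subring {R : Type*} [CommRing R] (ι : R →+* ℂ) (p : ℕ) [Fact p.Prime]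
    {k : Type*} [Field k] [CharP k p] (red : R →+* k) :
    ∃ (f : Fin (Module.finrank ℂ (CuspForm (Gamma0 N) 2)) → CuspForm (Gamma0 N) 2)
      (b : Fin (Module.finrank ℂ (CuspForm (Gamma0 N) 2)) → ℕ → R),
      (∀ i n, qCoeff (f i) n = ι (b i n)) ∧ LinearIndependent ℂ f ∧
      Submodule.span ℂ (Set.range f) = ⊤ ∧
      LinearIndependent k (fun i => fun n : ℕ => red (b i n)) := by
  obtain ⟨f, a, hfa, hli, hspan, hred⟩ := exists_intBasis N
  refine ⟨f, fun i n => ((a i n : ℤ) : R), fun i n => ?_, hli, hspan, ?_⟩
  · rw [map_intCast, hfa]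
  · have h := linearIndependent_intCast_of_zmod (hred p) k
    convert h using 3
    rw [map_intCast]

end Fermat.Agent.GF.D2.F2
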