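/-
GATE-F / GF-D2-F2 (helper23): the contract `SatBasis` of helper62's `GF/D2/Contracts.lean`,
DISCHARGED for every valuation subring `A` of `ℚ̄` over a prime `p` and every `ι : ℚ̄ →+* ℂ`,
with `g = dim_ℂ S₂(Γ₀(N))`  (from `IntBasis.exists_intBasis_subring`).
-/
import Fermat.Agent.GF.D2.Contracts
import Fermat.Agent.GF.D2.F2.IntBasis
import Fermat.Agent.GH.Inst.Main

set_option autoImplicit false

open CongruenceSubgroup ModularFormClass

namespace Fermat.Agent.GF.D2.F2

open Fermat.Agent.GH.Inst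

/-- `ℚ̄`. -/
local notation "Qb" => AlgebraicClosure ℚ

/-- **(F2) of GF-D2, contract form.** -/
theorem satBasis (N : ℕ) [NeZero N] (A : ValuationSubring Qb) {p : ℕ} (hp : p.Prime)
    (hA : A.LiesOverPrime p) (ι : Qb →+* ℂ) :
    Fermat.Agent.GF.D2.SatBasis N A ι (Module.finrank ℂ (CuspForm (Gamma0 N) 2)) := by
  have : Fact p.Prime := ⟨hp⟩
  have : CharP (kA A) p := charP_kA A hp hA
  obtain ⟨f, b, hfb, -, -, hred⟩ :=
    exists_intBasis_subring N (R := A) (ι.comp A.subtype) p (k := kA A) (IsLocalRing.residue A)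
  exact ⟨f, b, fun i n => hfb i n, hred, rfl⟩

end Fermat.Agent.GF.D2.F2
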